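import Mathlib
import Fermat.Agent.S18.H334.LocalUFD

/-!
# S18, Route K, piece LE (helper394): local existence, abstract local step

`R` a noetherian local domain, `w ∈ R` prime, maximal ideal `= (w, t)` (output of b2 at a closed
point of the special fibre).  Then `R ⧸ (w)` is a principal ideal domain, `R` is factorial
(`H334.ufm_of_quotient_pir`), and for `a ≡ b mod w`, `w ∤ b`, with `m ∣ ord_p a - ord_p b` for all
primes `p`, there are `s`, `t'` and units `ε`, `ρ` with

  `a * t' ^ m = ε * b * s ^ m`,   `w ∤ s`,   `t' ≡ ρ s mod w`.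

So `σ := t' / (ρ s)` satisfies `σ ^ m * (a / b) = ε / ρ ^ m ∈ Rˣ` and `σ ≡ 1 mod w R_(w)`.
-/

set_option autoImplicit false
set_option linter.style.haveILetI false

namespace Fermat.Agent.S18.H394

open IsLocalRing

section LELocal

variable {R : Type*} [CommRing R] [IsDomain R] [IsNoetherianRing R] [IsLocalRing R]

/-- If the maximal ideal of the noetherian local domain `R` is `(w, t)` with `w` prime, then
`R ⧸ (w)` is a principal ideal ring. -/
theorem isPrincipalIdealRing_quotient_of_le_span_pair (w t : R) (hw : Prime w)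
    (ht : t ∈ maximalIdeal R) (hgen : maximalIdeal R ≤ Ideal.span {w, t}) :
    IsPrincipalIdealRing (R ⧸ Ideal.span {w}) := by
  haveI hP : (Ideal.span {w}).IsPrime := (Ideal.span_singleton_prime hw.ne_zero).mpr hw
  haveI : IsLocalRing (R ⧸ Ideal.span {w}) :=
    IsLocalRing.of_surjective' (Ideal.Quotient.mk (Ideal.span {w})) Ideal.Quotient.mk_surjective
  have hwm : w ∈ maximalIdeal R := (IsLocalRing.mem_maximalIdeal w).mpr hw.not_isUnit
  have hle : Ideal.span {w} ≤ maximalIdeal R := by
    rw [Ideal.span_le, Set.singleton_subset_iff]; exact hwm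
  have key : maximalIdeal (R ⧸ Ideal.span {w})
      = Ideal.span {Ideal.Quotient.mk (Ideal.span {w}) t} := by
    apply le_antisymm
    · intro x hx
      obtain ⟨a, rfl⟩ := Ideal.Quotient.mk_surjective x
      have ha : a ∈ maximalIdeal R := by
        rw [IsLocalRing.mem_maximalIdeal] at hx ⊢
        intro hu
        exact hx (hu.map _)
      obtain ⟨c, d, hcd⟩ := Ideal.mem_span_pair.mp (hgen ha)
      rw [Ideal.mem_span_singleton]
      refine ⟨Ideal.Quotient.mk _ d, ?_⟩
      rw [← hcd, map_add, map_mul, map_mul]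
      have : Ideal.Quotient.mk (Ideal.span {w}) w = 0 :=
        Ideal.Quotient.eq_zero_iff_mem.mpr (Ideal.mem_span_singleton_self w)
      rw [this, mul_zero, zero_add, mul_comm]
    · rw [Ideal.span_le, Set.singleton_subset_iff, SetLike.mem_coe, IsLocalRing.mem_maximalIdeal]
      intro hu
      obtain ⟨y, hy⟩ := isUnit_iff_exists_inv.mp hu
      obtain ⟨y', rfl⟩ := Ideal.Quotient.mk_surjective y
      rw [← map_mul, ← map_one (Ideal.Quotient.mk (Ideal.span {w})), Ideal.Quotient.eq] at hy
      have h1 : t * y' - 1 ∈ maximalIdeal R := hle hy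
      have h2 : t * y' ∈ maximalIdeal R := Ideal.mul_mem_right _ _ ht
      have h3 : (1 : R) ∈ maximalIdeal R := by
        have := Ideal.sub_mem _ h2 h1
        simpa using this
      exact (IsLocalRing.mem_maximalIdeal 1).mp h3 isUnit_one
  have hprin : (maximalIdeal (R ⧸ Ideal.span {w})).IsPrincipal := ⟨⟨_, key⟩⟩
  exact ((tfae_of_isNoetherianRing_of_isLocalRing_of_isDomain
    (R := R ⧸ Ideal.span {w})).out 4 0).mp hprin

/-- **Local existence, abstract form.** -/
theorem exists_local_normal_form (w t : R) (hw : Prime w)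
    (ht : t ∈ maximalIdeal R) (hgen : maximalIdeal R ≤ Ideal.span {w, t})
    (m : ℕ) (hm : m ≠ 0) (a b : R) (hb : ¬ w ∣ b) (hab : w ∣ a - b)
    (hdiv : ∀ p : R, Prime p → ¬ Associated p w →
      (m : ℤ) ∣ (multiplicity p a : ℤ) - (multiplicity p b : ℤ)) :
    ∃ (ε ρ : Rˣ) (s t' : R), ¬ w ∣ s ∧ w ∣ t' - ρ * s ∧ a * t' ^ m = ε * b * s ^ m := by
  haveI hP : (Ideal.span {w}).IsPrime := (Ideal.span_singleton_prime hw.ne_zero).mpr hw
  haveI : IsPrincipalIdealRing (R ⧸ Ideal.span {w}) :=
    isPrincipalIdealRing_quotient_of_le_span_pair w t hw ht hgen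
  haveI : UniqueFactorizationMonoid R := H334.ufm_of_quotient_pir w hw.ne_zero
  have ha : ¬ w ∣ a := fun h => hb (by simpa using dvd_sub h hab)
  have ha0 : a ≠ 0 := fun h => ha (h ▸ dvd_zero w)
  have hb0 : b ≠ 0 := fun h => hb (h ▸ dvd_zero w)
  have hdiv' : ∀ p : R, Prime p →
      (m : ℤ) ∣ (multiplicity p a : ℤ) - (multiplicity p b : ℤ) := by
    intro p hp
    by_cases hpw : Associated p w
    · have h1 : multiplicity p a = 0 := by
        rw [multiplicity_eq_zero]
        exact fun h => ha (hpw.symm.dvd.trans h)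
      have h2 : multiplicity p b = 0 := by
        rw [multiplicity_eq_zero]
        exact fun h => hb (hpw.symm.dvd.trans h)
      rw [h1, h2]
      simp
    · exact hdiv p hp hpw
  obtain ⟨ε, s, t', hs0, ht0, hcop, heq⟩ := H334.exists_kummer_normal_form m hm a b ha0 hb0 hdiv'
  have hws : ¬ w ∣ s := by
    intro h
    have h1 : w ∣ a * t' ^ m := by
      rw [heq]
      exact Dvd.dvd.mul_left (dvd_pow h hm) _
    have h2 : w ∣ t' := by
      rcases hw.dvd_or_dvd h1 with h3 | h3
      · exact absurd h3 ha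
      · exact hw.dvd_of_dvd_pow h3
    exact hw.not_isUnit (hcop h h2)
  set q := Ideal.Quotient.mk (Ideal.span {w}) with hq
  have hqw : ∀ z : R, q z = 0 ↔ w ∣ z := fun z => by
    rw [hq, Ideal.Quotient.eq_zero_iff_mem, Ideal.mem_span_singleton]
  have hqab : q a = q b := by
    have := (hqw (a - b)).mpr hab
    rwa [map_sub, sub_eq_zero] at this
  have hqb : q b ≠ 0 := fun h => hb ((hqw b).mp h)
  have hqs : q s ≠ 0 := fun h => hws ((hqw s).mp h)
  have h1 : q t' ^ m = q ε * q s ^ m := by
    have := congrArg q heq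
    simp only [map_mul, map_pow] at this
    rw [hqab] at this
    have h2 : q b * q t' ^ m = q b * (q ε * q s ^ m) := by rw [this]; ring
    exact mul_left_cancel₀ hqb h2
  haveI : IsIntegrallyClosed (R ⧸ Ideal.span {w}) := inferInstance
  have h3 : q s ∣ q t' := by
    rw [← IsIntegrallyClosed.pow_dvd_pow_iff hm, h1]
    exact Dvd.intro_left _ rfl
  obtain ⟨ρ', hρ'⟩ := h3
  have h4 : ρ' ^ m = q ε := by
    have : q s ^ m * ρ' ^ m = q s ^ m * q ε := by
      rw [← mul_pow, ← hρ', h1, mul_comm]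
    exact mul_left_cancel₀ (pow_ne_zero m hqs) this
  have hρu : IsUnit ρ' := by
    have : IsUnit (ρ' ^ m) := by
      rw [h4]; exact (ε.isUnit).map q
    exact (isUnit_pow_iff hm).mp this
  obtain ⟨ρ₀, rfl⟩ := Ideal.Quotient.mk_surjective ρ'
  have hρ₀ : IsUnit ρ₀ := by
    by_contra hnu
    have hmem : ρ₀ ∈ maximalIdeal R := (IsLocalRing.mem_maximalIdeal ρ₀).mpr hnu
    obtain ⟨y, hy⟩ := isUnit_iff_exists_inv.mp hρu
    obtain ⟨y', rfl⟩ := Ideal.Quotient.mk_surjective y
    rw [← map_mul, ← map_one (Ideal.Quotient.mk (Ideal.span {w})), Ideal.Quotient.eq,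
      Ideal.mem_span_singleton] at hy
    have hwm : w ∈ maximalIdeal R := (IsLocalRing.mem_maximalIdeal w).mpr hw.not_isUnit
    have h5 : ρ₀ * y' - 1 ∈ maximalIdeal R := by
      obtain ⟨c, hc⟩ := hy
      rw [hc]; exact Ideal.mul_mem_right _ _ hwm
    have h6 : (1 : R) ∈ maximalIdeal R := by
      have := Ideal.sub_mem _ (Ideal.mul_mem_right y' _ hmem) h5
      simpa using this
    exact (IsLocalRing.mem_maximalIdeal 1).mp h6 isUnit_one
  refine ⟨ε, hρ₀.unit, s, t', hws, ?_, heq⟩
  rw [← hqw, map_sub, map_mul, hρ', IsUnit.unit_spec, mul_comm, sub_self]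

end LELocal

end Fermat.Agent.S18.H394
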