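import Mathlib
import Fermat.Agent.S18.H754.KummerSpec
import Fermat.Agent.S18.H394.LELocal

/-!
# S18, Route K, piece LE (helper394): local existence at a closed point of the special fibre

`B` a noetherian domain with fraction field `F`, `ϖ ∈ B` prime, `𝔪 ∋ ϖ` a maximal ideal at which
the special fibre is regular (`𝔪 B_𝔪 = (ϖ, t)`), `u ∈ F` with `u ≡ 1 mod ϖ` and divisor divisible
by `m`.  Then there are `f ∈ F` and `s ∈ B ∖ 𝔪` with

  `f ^ m * u ∈ B`   and   `f ≡ s mod ϖ B_(ϖ)`.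

(`f = s σ` where `σ ^ m * u` is a unit of `B_𝔪` and `σ ≡ 1`.)
-/

set_option autoImplicit false
set_option linter.style.haveILetI false

namespace Fermat.Agent.S18.H394

open IsLocalRing

section Height

variable {R : Type*} [CommRing R] [IsDomain R] [IsNoetherianRing R]

/-- The ideal generated by a prime element of a noetherian domain has height one. -/
theorem height_span_singleton_of_prime {p : R} (hp : Prime p) :
    (Ideal.span {p}).height = 1 := by
  haveI hP : (Ideal.span {p}).IsPrime := (Ideal.span_singleton_prime hp.ne_zero).mpr hp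
  apply le_antisymm
  · haveI : (Ideal.span {p}).IsPrincipal := ⟨⟨p, rfl⟩⟩
    refine Ideal.height_le_one_of_isPrincipal_of_mem_minimalPrimes (Ideal.span {p}) _ ?_
    rw [Ideal.minimalPrimes_eq_subsingleton_self]
    exact Set.mem_singleton _
  · exact Ideal.one_le_height_span_singleton_of_mem_nonZeroDivisors
      (mem_nonZeroDivisors_of_ne_zero hp.ne_zero)

end Height

section Bridge

variable {B : Type*} [CommRing B] [IsDomain B] [IsNoetherianRing B]
  {F : Type*} [Field F] [Algebra B F] [IsFractionRing B F]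

/-- Local existence with an abstract model `R'` of the localization `B_𝔪`. -/
theorem exists_local_of_isLocalization
    (R' : Type*) [CommRing R'] [IsDomain R'] [Algebra B R'] [Algebra R' F] [IsScalarTower B R' F]
    [IsFractionRing R' F]
    (ϖ : B) (hϖ : Prime ϖ) (𝔪 : Ideal B) [h𝔪 : 𝔪.IsPrime] [IsLocalization.AtPrime R' 𝔪]
    (hϖ𝔪 : ϖ ∈ 𝔪)
    (t : B) (ht : t ∈ 𝔪) (hreg : ∀ a ∈ 𝔪, ∃ s : B, s ∉ 𝔪 ∧ s * a ∈ Ideal.span {ϖ, t})
    (m : ℕ) (hm : m ≠ 0) (u : F) (hu : H754.OneModPi ϖ u) (hdiv : H754.DivisibleDivisor B m u) :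
    ∃ (f : F) (s : B), s ∉ 𝔪 ∧ (∃ b : B, f ^ m * u = algebraMap B F b) ∧
      ∃ d e : B, d ∉ Ideal.span {ϖ} ∧
        algebraMap B F d * (f - algebraMap B F s) = algebraMap B F ϖ * algebraMap B F e := by
  classical
  haveI : IsLocalRing R' := IsLocalization.AtPrime.isLocalRing R' 𝔪
  haveI : IsNoetherianRing R' := IsLocalization.isNoetherianRing 𝔪.primeCompl R' inferInstance
  have hinjBR : Function.Injective (algebraMap B R') :=
    IsLocalization.injective R' (Ideal.primeCompl_le_nonZeroDivisors 𝔪)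
  have hinjRF : Function.Injective (algebraMap R' F) := IsFractionRing.injective R' F
  have hBF : ∀ z : B, algebraMap B F z = algebraMap R' F (algebraMap B R' z) := fun z =>
    IsScalarTower.algebraMap_apply B R' F z
  set ι := algebraMap B R' with hι
  -- units
  have hunit : ∀ z : B, z ∉ 𝔪 → IsUnit (ι z) := fun z hz =>
    (IsLocalization.AtPrime.isUnit_to_map_iff R' 𝔪 z).mpr hz
  -- `ϖ' = ι ϖ` is prime
  have hspan : (Ideal.span {ϖ}).IsPrime := (Ideal.span_singleton_prime hϖ.ne_zero).mpr hϖ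
  have hle : Ideal.span {ϖ} ≤ 𝔪 := by
    rw [Ideal.span_le, Set.singleton_subset_iff]; exact hϖ𝔪
  have hdisj : Disjoint (𝔪.primeCompl : Set B) (Ideal.span {ϖ} : Ideal B) := by
    rw [Set.disjoint_left]
    intro z hz hz'
    exact hz (hle hz')
  have hϖ'0 : ι ϖ ≠ 0 := fun h => hϖ.ne_zero (hinjBR (by rw [h, map_zero]))
  have hϖ' : Prime (ι ϖ) := by
    have h1 := IsLocalization.isPrime_of_isPrime_disjoint 𝔪.primeCompl R' _ hspan hdisj
    rw [Ideal.map_span, Set.image_singleton] at h1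
    exact (Ideal.span_singleton_prime hϖ'0).mp h1
  -- divisibility by `ϖ'` descends
  have hdvd : ∀ z : B, ι ϖ ∣ ι z → ϖ ∣ z := by
    intro z hz
    obtain ⟨y, hy⟩ := hz
    obtain ⟨c, d, rfl⟩ := IsLocalization.exists_mk'_eq 𝔪.primeCompl y
    have h1 : ι (z * d) = ι (ϖ * c) := by
      rw [map_mul, map_mul, hy, mul_assoc, IsLocalization.mk'_spec]
    have h2 : z * d = ϖ * c := hinjBR h1
    have h3 : ϖ ∣ z * d := ⟨c, h2⟩
    rcases hϖ.dvd_or_dvd h3 with h4 | h4
    · exact h4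
    · exfalso
      exact d.2 (hle (Ideal.mem_span_singleton.mpr h4))
  -- the maximal ideal
  have ht' : ι t ∈ maximalIdeal R' := (IsLocalization.AtPrime.to_map_mem_maximal_iff R' 𝔪 t).mpr ht
  have hgen : maximalIdeal R' ≤ Ideal.span {ι ϖ, ι t} := by
    intro y hy
    obtain ⟨a, s, rfl⟩ := IsLocalization.exists_mk'_eq 𝔪.primeCompl y
    have ha : a ∈ 𝔪 := (IsLocalization.AtPrime.mk'_mem_maximal_iff R' 𝔪 a s).mp hy
    obtain ⟨s₂, hs₂, hs₂a⟩ := hreg a ha
    obtain ⟨c, d, hcd⟩ := Ideal.mem_span_pair.mp hs₂a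
    have h1 : ι s₂ * ι s * IsLocalization.mk' R' a s = ι c * ι ϖ + ι d * ι t := by
      rw [mul_assoc, mul_comm (ι s), IsLocalization.mk'_spec, ← map_mul, ← hcd, map_add, map_mul,
        map_mul]
    have hu1 : IsUnit (ι s₂ * ι s) := (hunit s₂ hs₂).mul (hunit s s.2)
    have h2 : ι s₂ * ι s * IsLocalization.mk' R' a s ∈ Ideal.span {ι ϖ, ι t} := by
      rw [h1]
      exact Ideal.mem_span_pair.mpr ⟨ι c, ι d, rfl⟩
    exact (Ideal.unit_mul_mem_iff_mem _ hu1).mp h2
  -- `u = a / b`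
  obtain ⟨a, b, hb, hab, hub⟩ := hu
  have hb' : ¬ ι ϖ ∣ ι b := fun h => hb (Ideal.mem_span_singleton.mpr (hdvd b h))
  have hab' : ι ϖ ∣ ι a - ι b := by
    rw [← map_sub]
    exact map_dvd ι (Ideal.mem_span_singleton.mp hab)
  have hb0 : b ≠ 0 := fun h => hb (h ▸ Ideal.zero_mem _)
  have ha0 : a ≠ 0 := by
    rintro rfl
    apply hb
    have := Ideal.neg_mem_iff _ |>.mpr hab
    simpa using this
  have hιa0 : ι a ≠ 0 := fun h => ha0 (hinjBR (by rw [h, map_zero]))
  have hιb0 : ι b ≠ 0 := fun h => hb0 (hinjBR (by rw [h, map_zero]))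
  -- divisor condition
  have hdiv' : ∀ p : R', Prime p → ¬ Associated p (ι ϖ) →
      (m : ℤ) ∣ (multiplicity p (ι a) : ℤ) - (multiplicity p (ι b) : ℤ) := by
    intro p hp _
    haveI hpP : (Ideal.span {p}).IsPrime := (Ideal.span_singleton_prime hp.ne_zero).mpr hp
    set 𝔭 : Ideal B := (Ideal.span {p}).under B with h𝔭
    have h𝔭prime : 𝔭.IsPrime := Ideal.IsPrime.under B (Ideal.span {p})
    have hht : 𝔭.height = 1 := by
      rw [h𝔭, IsLocalization.height_under 𝔪.primeCompl, height_span_singleton_of_prime hp]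
    have hmem : ∀ z : B, z ∉ 𝔭 → ¬ p ∣ ι z := by
      intro z hz h
      apply hz
      rw [h𝔭, Ideal.under_def, Ideal.mem_comap, Ideal.mem_span_singleton]
      exact h
    obtain ⟨tF, a₁, s₁, ha₁, hs₁, h1⟩ := hdiv 𝔭 h𝔭prime hht
    obtain ⟨c, d, hd, rfl⟩ := IsFractionRing.div_surjective R' tF
    have hd0 : d ≠ 0 := nonZeroDivisors.ne_zero hd
    have hdF : algebraMap R' F d ≠ 0 := fun h => hd0 (hinjRF (by rw [h, map_zero]))
    have hbF : algebraMap R' F (ι b) ≠ 0 := fun h => hιb0 (hinjRF (by rw [h, map_zero]))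
    have ha₁0 : ι a₁ ≠ 0 := fun h => hmem a₁ ha₁ (h ▸ dvd_zero p)
    have hs₁0 : ι s₁ ≠ 0 := fun h => hmem s₁ hs₁ (h ▸ dvd_zero p)
    -- the equation in `R'`
    have h2 : ι a * c ^ m * ι s₁ = ι a₁ * ι b * d ^ m := by
      apply hinjRF
      simp only [map_mul, map_pow]
      rw [hBF, hBF] at h1
      rw [hBF, hBF] at hub
      have hu' : u = algebraMap R' F (ι a) / algebraMap R' F (ι b) := by
        rw [eq_div_iff hbF, hub]
      rw [hu'] at h1
      rw [← h1, div_pow]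
      field_simp
    have hc0 : c ≠ 0 := by
      rintro rfl
      rw [zero_pow hm, mul_zero, zero_mul] at h2
      exact mul_ne_zero (mul_ne_zero ha₁0 hιb0) (pow_ne_zero m hd0) h2.symm
    have hfin : ∀ z : R', z ≠ 0 → FiniteMultiplicity p z := fun z hz =>
      FiniteMultiplicity.of_prime_left hp hz
    have e1 : multiplicity p (ι a * c ^ m * ι s₁)
        = multiplicity p (ι a) + m * multiplicity p c + 0 := by
      rw [multiplicity_mul hp (hfin _ (mul_ne_zero (mul_ne_zero hιa0 (pow_ne_zero m hc0)) hs₁0)),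
        multiplicity_mul hp (hfin _ (mul_ne_zero hιa0 (pow_ne_zero m hc0))),
        (hfin _ hc0).multiplicity_pow hp, multiplicity_eq_zero.mpr (hmem s₁ hs₁)]
    have e2 : multiplicity p (ι a₁ * ι b * d ^ m)
        = 0 + multiplicity p (ι b) + m * multiplicity p d := by
      rw [multiplicity_mul hp (hfin _ (mul_ne_zero (mul_ne_zero ha₁0 hιb0) (pow_ne_zero m hd0))),
        multiplicity_mul hp (hfin _ (mul_ne_zero ha₁0 hιb0)),
        (hfin _ hd0).multiplicity_pow hp, multiplicity_eq_zero.mpr (hmem a₁ ha₁)]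
    rw [h2, e2] at e1
    refine ⟨(multiplicity p d : ℤ) - multiplicity p c, ?_⟩
    have e3 : ((0 + multiplicity p (ι b) + m * multiplicity p d : ℕ) : ℤ)
        = ((multiplicity p (ι a) + m * multiplicity p c + 0 : ℕ) : ℤ) := by rw [e1]
    push_cast at e3
    linear_combination -e3
  obtain ⟨ε, ρ, s₀, t₀, hs₀, hts, heq⟩ :=
    exists_local_normal_form (ι ϖ) (ι t) hϖ' ht' hgen m hm (ι a) (ι b) hb' hab' hdiv'
  -- the unit `η = ε / ρ ^ m`
  obtain ⟨a₂, s₂, hη⟩ := IsLocalization.exists_mk'_eq 𝔪.primeCompl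
    ((ε : R') * ((ρ⁻¹ : R'ˣ) : R') ^ m)
  have hη' : ι s₂ * ((ε : R') * ((ρ⁻¹ : R'ˣ) : R') ^ m) = ι a₂ := by
    rw [← hη, mul_comm, IsLocalization.mk'_spec]
  obtain ⟨n₁, d₁, hn₁⟩ := IsLocalization.exists_mk'_eq 𝔪.primeCompl ((ρ : R') * s₀)
  have hn₁' : (ρ : R') * s₀ * ι d₁ = ι n₁ := by
    rw [← hn₁, IsLocalization.mk'_spec]
  obtain ⟨c₀, hc₀⟩ := hts
  obtain ⟨n₂, d₂, hn₂⟩ := IsLocalization.exists_mk'_eq 𝔪.primeCompl c₀
  have hn₂' : c₀ * ι d₂ = ι n₂ := by
    rw [← hn₂, IsLocalization.mk'_spec]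
  have hs₀0 : s₀ ≠ 0 := fun h => hs₀ (h ▸ dvd_zero _)
  have hρs : algebraMap R' F ((ρ : R') * s₀) ≠ 0 := fun h =>
    (mul_ne_zero ρ.ne_zero hs₀0) (hinjRF (by rw [h, map_zero]))
  have hbF : algebraMap R' F (ι b) ≠ 0 := fun h => hιb0 (hinjRF (by rw [h, map_zero]))
  have hρρ : (ρ : R') * ((ρ⁻¹ : R'ˣ) : R') = 1 := by
    rw [← Units.val_mul, mul_inv_cancel, Units.val_one]
  set σ : F := algebraMap R' F t₀ / algebraMap R' F ((ρ : R') * s₀) with hσ
  have hu' : u = algebraMap R' F (ι a) / algebraMap R' F (ι b) := by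
    rw [eq_div_iff hbF, ← hBF, ← hBF, hub]
  -- `σ ^ m * u = η`
  have hσu : σ ^ m * u = algebraMap R' F ((ε : R') * ((ρ⁻¹ : R'ˣ) : R') ^ m) := by
    rw [hσ, hu', div_pow, div_mul_div_comm, div_eq_iff (mul_ne_zero (pow_ne_zero m hρs) hbF),
      ← map_pow, ← map_mul, ← map_pow, ← map_mul, ← map_mul]
    congr 1
    have : t₀ ^ m * ι a = ((ρ : R') * ((ρ⁻¹ : R'ˣ) : R')) ^ m * (ι a * t₀ ^ m) := by
      rw [hρρ, one_pow, one_mul, mul_comm]
    rw [this, heq]
    ring
  -- the witness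
  refine ⟨algebraMap B F s₂ * σ, s₂, s₂.2, ?_, ?_⟩
  · obtain ⟨k, rfl⟩ := Nat.exists_eq_succ_of_ne_zero hm
    refine ⟨s₂ ^ k * a₂, ?_⟩
    calc (algebraMap B F s₂ * σ) ^ (k + 1) * u
        = algebraMap B F s₂ ^ k * (algebraMap B F s₂ * (σ ^ (k + 1) * u)) := by ring
      _ = algebraMap B F s₂ ^ k * algebraMap R' F (ι a₂) := by
          rw [hσu, hBF (s₂ : B), ← map_mul, hη']
      _ = algebraMap B F (s₂ ^ k * a₂) := by
          rw [map_mul, map_pow, hBF a₂]
  · refine ⟨d₂ * n₁, d₁ * s₂ * n₂, ?_, ?_⟩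
    · intro h
      rw [Ideal.mem_span_singleton] at h
      rcases hϖ.dvd_or_dvd h with h1 | h1
      · exact d₂.2 (hle (Ideal.mem_span_singleton.mpr h1))
      · have h2 : ι ϖ ∣ ι n₁ := map_dvd ι h1
        rw [← hn₁'] at h2
        have h3 : ι ϖ ∣ (ρ : R') * s₀ :=
          (IsUnit.dvd_mul_right (hunit d₁ d₁.2)).mp h2
        exact hs₀ ((IsUnit.dvd_mul_left ρ.isUnit).mp h3)
    · have e1 : algebraMap B F s₂ * σ - algebraMap B F s₂
          = algebraMap B F s₂ * (algebraMap R' F (ι ϖ * c₀) / algebraMap R' F ((ρ : R') * s₀)) := by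
        rw [hσ, ← hc₀, map_sub]
        field_simp
      rw [e1]
      simp only [map_mul, hBF, ← hn₁', ← hn₂']
      have hs₀F : algebraMap R' F s₀ ≠ 0 := fun h => hs₀0 (hinjRF (by rw [h, map_zero]))
      have hρF : algebraMap R' F (ρ : R') ≠ 0 := fun h => ρ.ne_zero (hinjRF (by rw [h, map_zero]))
      field_simp

end Bridge

end Fermat.Agent.S18.H394
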