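import Mathlib
import Fermat.Agent.S18.H754.KummerSpec
import Fermat.Agent.S18.H394.LEBridge
import Fermat.Agent.S18.H394.Graded

/-!
# S18, Route K, piece LE (helper394): existence of the local Kummer section on one chart

Setting of `H754/KummerSpec.lean` (one chart): `B` a noetherian integrally closed domain,
`F = Frac B`, `ϖ ∈ B` prime, special fibre regular (`H754.RegularAlong ϖ`, the output of b2),
`u ∈ F` with `u ≡ 1 mod ϖ` (`H754.OneModPi`) and divisor divisible by `m`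
(`H754.DivisibleDivisor B m u`), `m ≠ 0` (no invertibility of `m` is needed here).

**Theorem `exists_sigma`**: there is `σ ∈ F` with

* `σ ^ m * u - 1 ∈ ϖ B`,
* `σ ≡ 1 mod ϖ B_(ϖ)`  (`d (σ - 1) = ϖ e` with `d ∈ B ∖ ϖ B`).

Proof: local existence at every closed point of the special fibre (`LEBridge`, local UFD) and
the ideal of denominators `J = {s | ∃ f, f ^ m u ∈ B, f ≡ s mod ϖ B_(ϖ)}`, which contains `ϖ` and
is contained in no maximal ideal.  This is the input (LE) of `H394.kummer_endgame`.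
-/

set_option autoImplicit false
set_option linter.style.haveILetI false

namespace Fermat.Agent.S18.H394

section Global

variable {B : Type*} [CommRing B] [IsDomain B] [IsNoetherianRing B]
  {F : Type*} [Field F] [Algebra B F] [IsFractionRing B F]

/-- Local existence at a closed point of the special fibre. -/
theorem exists_local_of_regularAlong (ϖ : B) (hϖ : Prime ϖ) (hreg : H754.RegularAlong ϖ)
    (𝔪 : Ideal B) (h𝔪 : 𝔪.IsMaximal) (hϖ𝔪 : ϖ ∈ 𝔪)
    (m : ℕ) (hm : m ≠ 0) (u : F) (hu : H754.OneModPi ϖ u) (hdiv : H754.DivisibleDivisor B m u) :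
    ∃ (f : F) (s : B), s ∉ 𝔪 ∧ (∃ b : B, f ^ m * u = algebraMap B F b) ∧
      ∃ d e : B, d ∉ Ideal.span {ϖ} ∧
        algebraMap B F d * (f - algebraMap B F s) = algebraMap B F ϖ * algebraMap B F e := by
  haveI := h𝔪.isPrime
  obtain ⟨t, ht, hreg'⟩ := hreg 𝔪 h𝔪 hϖ𝔪
  exact exists_local_of_isLocalization
    (Localization.subalgebra.ofField F 𝔪.primeCompl (Ideal.primeCompl_le_nonZeroDivisors 𝔪))
    ϖ hϖ 𝔪 hϖ𝔪 t ht hreg' m hm u hu hdiv

variable [IsIntegrallyClosed B]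

/-- The image of an integrally closed domain in its fraction field is closed under roots. -/
theorem rootClosed_bot (m : ℕ) (hm : m ≠ 0) : RootClosed m (⊥ : Subalgebra B F) := by
  intro f hf
  rw [Algebra.mem_bot] at hf ⊢
  obtain ⟨b, hb⟩ := hf
  have hint : IsIntegral B f := by
    refine ⟨Polynomial.X ^ m - Polynomial.C b, Polynomial.monic_X_pow_sub_C b hm, ?_⟩
    simp [hb]
  obtain ⟨y, hy⟩ := IsIntegrallyClosed.algebraMap_eq_of_integral hint
  exact ⟨y, hy⟩

/-- The ideal of denominators. -/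
def denomIdeal (ϖ : B) (m : ℕ) (hm : m ≠ 0) (hϖ : Prime ϖ) (u : F) : Ideal B where
  carrier := {s | ∃ f : F, f ∈ degSet (⊥ : Subalgebra B F) m u 1 ∧
    ∃ d e : B, d ∉ Ideal.span {ϖ} ∧
      algebraMap B F d * (f - algebraMap B F s) = algebraMap B F ϖ * algebraMap B F e}
  zero_mem' := by
    refine ⟨0, zero_mem_degSet (Nat.pos_of_ne_zero hm) 1, 1, 0, ?_, by simp⟩
    rw [Ideal.mem_span_singleton]
    exact fun h => hϖ.not_isUnit (isUnit_of_dvd_one h)
  add_mem' := by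
    rintro s₁ s₂ ⟨f₁, hf₁, d₁, e₁, hd₁, h₁⟩ ⟨f₂, hf₂, d₂, e₂, hd₂, h₂⟩
    refine ⟨f₁ + f₂, add_mem_degSet (rootClosed_bot m hm) hf₁ hf₂, d₁ * d₂, d₂ * e₁ + d₁ * e₂,
      ?_, ?_⟩
    · rw [Ideal.mem_span_singleton] at hd₁ hd₂ ⊢
      intro h
      rcases hϖ.dvd_or_dvd h with h | h
      · exact hd₁ h
      · exact hd₂ h
    · simp only [map_add, map_mul]
      linear_combination algebraMap B F d₂ * h₁ + algebraMap B F d₁ * h₂
  smul_mem' := by
    rintro c s ⟨f, hf, d, e, hd, h⟩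
    refine ⟨algebraMap B F c * f, smul_mem_degSet (Subalgebra.algebraMap_mem _ c) hf, d, c * e,
      hd, ?_⟩
    simp only [smul_eq_mul, map_mul]
    linear_combination algebraMap B F c * h

theorem mem_denomIdeal {ϖ : B} {m : ℕ} {hm : m ≠ 0} {hϖ : Prime ϖ} {u : F} {s : B} :
    s ∈ denomIdeal ϖ m hm hϖ u ↔ ∃ f : F, f ∈ degSet (⊥ : Subalgebra B F) m u 1 ∧
      ∃ d e : B, d ∉ Ideal.span {ϖ} ∧
        algebraMap B F d * (f - algebraMap B F s) = algebraMap B F ϖ * algebraMap B F e :=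
  Iff.rfl

/-- **(LE), first form**: a global `σ` with `σ ^ m * u ∈ B` and `σ ≡ 1 mod ϖ B_(ϖ)`. -/
theorem exists_sigma_mem (ϖ : B) (hϖ : Prime ϖ) (hreg : H754.RegularAlong ϖ)
    (m : ℕ) (hm : m ≠ 0) (u : F) (hu : H754.OneModPi ϖ u) (hdiv : H754.DivisibleDivisor B m u) :
    ∃ σ : F, (∃ b : B, σ ^ m * u = algebraMap B F b) ∧
      ∃ d e : B, d ∉ Ideal.span {ϖ} ∧
        algebraMap B F d * (σ - 1) = algebraMap B F ϖ * algebraMap B F e := by
  have htop : denomIdeal ϖ m hm hϖ u = ⊤ := by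
    by_contra hne
    obtain ⟨𝔪, h𝔪, hle⟩ := Ideal.exists_le_maximal _ hne
    have hϖJ : ϖ ∈ denomIdeal ϖ m hm hϖ u := by
      refine ⟨0, zero_mem_degSet (Nat.pos_of_ne_zero hm) 1, 1, -1, ?_, by simp⟩
      rw [Ideal.mem_span_singleton]
      exact fun h => hϖ.not_isUnit (isUnit_of_dvd_one h)
    obtain ⟨f, s, hs, ⟨b, hb⟩, d, e, hd, hde⟩ :=
      exists_local_of_regularAlong ϖ hϖ hreg 𝔪 h𝔪 (hle hϖJ) m hm u hu hdiv
    apply hs
    apply hle
    refine ⟨f, ?_, d, e, hd, hde⟩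
    rw [mem_degSet, pow_one, hb]
    exact Subalgebra.algebraMap_mem _ b
  have h1 : (1 : B) ∈ denomIdeal ϖ m hm hϖ u := by rw [htop]; trivial
  obtain ⟨f, hf, d, e, hd, hde⟩ := h1
  rw [mem_degSet, pow_one, Algebra.mem_bot] at hf
  obtain ⟨b, hb⟩ := hf
  refine ⟨f, ⟨b, hb.symm⟩, d, e, hd, ?_⟩
  rwa [map_one] at hde

/-- **(LE)**: a global `σ` with `σ ^ m * u - 1 ∈ ϖ B` and `σ ≡ 1 mod ϖ B_(ϖ)`. -/
theorem exists_sigma (ϖ : B) (hϖ : Prime ϖ) (hreg : H754.RegularAlong ϖ)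
    (m : ℕ) (hm : m ≠ 0) (u : F) (hu : H754.OneModPi ϖ u) (hdiv : H754.DivisibleDivisor B m u) :
    ∃ σ : F, (∃ b : B, σ ^ m * u - 1 = algebraMap B F ϖ * algebraMap B F b) ∧
      ∃ d e : B, d ∉ Ideal.span {ϖ} ∧
        algebraMap B F d * (σ - 1) = algebraMap B F ϖ * algebraMap B F e := by
  obtain ⟨σ, ⟨b, hb⟩, d, e, hd, hde⟩ := exists_sigma_mem ϖ hϖ hreg m hm u hu hdiv
  refine ⟨σ, ?_, d, e, hd, hde⟩
  obtain ⟨a, s, hs, has, hus⟩ := hu
  have hinj : Function.Injective (algebraMap B F) := IsFractionRing.injective B F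
  rw [Ideal.mem_span_singleton] at hd hs has
  obtain ⟨c, hc⟩ := has
  -- `(d + ϖ e) ^ m = d ^ m + ϖ E`
  obtain ⟨E, hE⟩ : ϖ ∣ (d + ϖ * e) ^ m - d ^ m := by
    have h1 : (d + ϖ * e) - d ∣ (d + ϖ * e) ^ m - d ^ m := sub_dvd_pow_sub_pow _ _ m
    have h2 : ϖ ∣ (d + ϖ * e) - d := ⟨e, by ring⟩
    exact h2.trans h1
  have hdσ : algebraMap B F d * σ = algebraMap B F (d + ϖ * e) := by
    rw [map_add, map_mul]
    linear_combination hde
  have key : algebraMap B F (d ^ m * s * (b - 1)) = algebraMap B F (ϖ * (d ^ m * c + E * a)) := by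
    have h3 : algebraMap B F (d ^ m) * σ ^ m = algebraMap B F (d ^ m + ϖ * E) := by
      rw [map_pow, ← mul_pow, hdσ, ← map_pow]
      congr 1
      linear_combination hE
    have h4 : algebraMap B F a = algebraMap B F s + algebraMap B F ϖ * algebraMap B F c := by
      rw [← map_mul, ← map_add]
      congr 1
      linear_combination hc
    simp only [map_mul, map_sub, map_add, map_one, map_pow] at h3 ⊢
    rw [← hb]
    linear_combination (u * algebraMap B F s) * h3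
      + (algebraMap B F d ^ m + algebraMap B F ϖ * algebraMap B F E) * hus
      + algebraMap B F d ^ m * h4
  have hdvd : ϖ ∣ d ^ m * s * (b - 1) := ⟨_, hinj key⟩
  have hb1 : ϖ ∣ b - 1 := by
    rcases hϖ.dvd_or_dvd hdvd with h | h
    · rcases hϖ.dvd_or_dvd h with h | h
      · exact absurd (hϖ.dvd_of_dvd_pow h) hd
      · exact absurd h hs
    · exact h
  obtain ⟨b', hb'⟩ := hb1
  refine ⟨b', ?_⟩
  rw [hb, ← map_one (algebraMap B F), ← map_sub, hb', map_mul]

end Global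

end Fermat.Agent.S18.H394
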